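import Mathlib.Analysis.SpecialFunctions.Log.Basic
import Mathlib.NumberTheory.DiophantineApproximation.Basic
import Mathlib.Analysis.Complex.Exponential
import Mathlib.Data.Set.Finite.Basic
import Mathlib.Data.Fintype.Pigeonhole
import Mathlib.Tactic

/-!
# Cobham's theorem

A sequence which is automatic in two multiplicatively independent bases is eventually periodic.
The proof follows the idea of Krebs: at one scale `K = k ^ c` near `L = l ^ d` the blocks have
periods small against `K`, and neighbouring blocks share a period.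
-/

set_option autoImplicit false

noncomputable section

open Finset Filter

namespace FA.Cobham

variable {α : Type*} {a : ℕ → α}

/-- The kernel of a sequence in base `k`. -/
def kern (k : ℕ) (a : ℕ → α) : Set (ℕ → α) :=
  {s | ∃ e r : ℕ, r < k ^ e ∧ s = fun n => a (k ^ e * n + r)}

/-- `a` repeats with period `q` inside `[u, v)`. -/
def PeriodicOn (a : ℕ → α) (q u v : ℕ) : Prop :=
  ∀ w, u ≤ w → w + q < v → a (w + q) = a w

theorem periodicOn_iterate {q u v : ℕ} (h : PeriodicOn a q u v) :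
    ∀ t w, u ≤ w → w + t * q < v → a (w + t * q) = a w := by
  intro t
  induction t with
  | zero => intro w _ _; simp
  | succ t ih =>
    intro w hu hv
    rw [add_mul, one_mul, ← add_assoc] at hv ⊢
    rw [h (w + t * q) (hu.trans (Nat.le_add_right _ _)) hv,
      ih w hu (lt_of_le_of_lt (Nat.le_add_right _ q) hv)]

/-- Two periods on sufficiently overlapping intervals: the first extends. -/
theorem periodicOn_glue {p q u v u' v' : ℕ} (hq : 0 < q) (hp : PeriodicOn a p u v)
    (hq' : PeriodicOn a q u' v') (hu : u ≤ u') (hlen : u' + p + q ≤ v) :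
    PeriodicOn a p u v' := by
  intro w hw hwp
  rcases lt_or_ge (w + p) v with h | h
  · exact hp w hw h
  · -- move `w` down into the overlap
    have hw' : u' + q ≤ w := by omega
    set t := (w - u') / q with ht
    have h1 : t * q ≤ w - u' := Nat.div_mul_le_self _ _
    have h2 : w - u' < (t + 1) * q := by
      rw [ht]
      exact Nat.lt_mul_of_div_lt (Nat.lt_succ_self _) hq
    rw [add_mul, one_mul] at h2
    clear ht
    clear_value t
    obtain ⟨z, rfl⟩ : ∃ z, w = z + t * q := ⟨w - t * q, by omega⟩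
    have hz1 : u' ≤ z := by omega
    have hz2 : z + p < v := by omega
    calc a (z + t * q + p) = a (z + p) := by
          rw [add_right_comm]
          exact periodicOn_iterate hq' t (z + p) (by omega) (by omega)
      _ = a z := hp z (hu.trans hz1) hz2
      _ = a (z + t * q) := (periodicOn_iterate hq' t z hz1 (by omega)).symm

/-- A finite kernel: finitely many values, and finitely many classes of prefixes. -/
theorem finite_range_of_finite_kern {k : ℕ} (hk : 2 ≤ k) (h : (kern k a).Finite) :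
    (Set.range a).Finite := by
  refine (h.image fun s => s 0).subset ?_
  rintro _ ⟨r, rfl⟩
  exact ⟨fun n => a (k ^ r * n + r), ⟨r, r, Nat.lt_pow_self hk, rfl⟩, by simp⟩

/-- The class of a prefix `x`: the blocks `a (x K + r)` depend on it only. -/
def prefixClass (k : ℕ) (a : ℕ → α) (x : ℕ) : kern k a → Set.range a := fun s =>
  ⟨s.1 x, by obtain ⟨e, r, -, hs⟩ := s.2; exact ⟨k ^ e * x + r, by rw [hs]⟩⟩

theorem block_eq {k : ℕ} {x y : ℕ} (h0 : prefixClass k a x = prefixClass k a y)
    (h1 : prefixClass k a (x + 1) = prefixClass k a (y + 1)) (c : ℕ) {r : ℕ}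
    (hr : r < 2 * k ^ c) : a (k ^ c * x + r) = a (k ^ c * y + r) := by
  rcases lt_or_ge r (k ^ c) with h | h
  · exact congrArg Subtype.val
      (congrFun h0 ⟨fun n => a (k ^ c * n + r), c, r, h, rfl⟩)
  · have hr' : r - k ^ c < k ^ c := by omega
    have := congrArg Subtype.val
      (congrFun h1 ⟨fun n => a (k ^ c * n + (r - k ^ c)), c, r - k ^ c, hr', rfl⟩)
    simp only [prefixClass] at this
    rwa [show k ^ c * (x + 1) + (r - k ^ c) = k ^ c * x + r by rw [mul_add, mul_one]; omega,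
      show k ^ c * (y + 1) + (r - k ^ c) = k ^ c * y + r by rw [mul_add, mul_one]; omega] at this

/-- Every late value of a map to a finite type is attained twice below a fixed bound. -/
theorem exists_two_early {F : Type*} [Finite F] (f : ℕ → F) :
    ∃ B N : ℕ, ∀ Y, N ≤ Y → ∃ x y, x < y ∧ y ≤ B ∧ f x = f Y ∧ f y = f Y := by
  classical
  have key : ∀ v : F, ∃ b n : ℕ, ∀ Y, n ≤ Y → f Y = v →
      ∃ x y, x < y ∧ y ≤ b ∧ f x = v ∧ f y = v := fun v => by
    by_cases hv : {Y | f Y = v}.Finite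
    · obtain ⟨n, hn⟩ := hv.bddAbove
      exact ⟨0, n + 1, fun Y hY hfY => absurd (hn hfY) (by omega)⟩
    · obtain ⟨x, hx, -⟩ := Set.Infinite.exists_gt (show {Y | f Y = v}.Infinite from hv) 0
      obtain ⟨y, hy, hxy⟩ := Set.Infinite.exists_gt (show {Y | f Y = v}.Infinite from hv) x
      exact ⟨y, 0, fun Y _ _ => ⟨x, y, hxy, le_rfl, hx, hy⟩⟩
  choose b n hbn using key
  have := Fintype.ofFinite F
  refine ⟨univ.sup b, univ.sup n, fun Y hY => ?_⟩
  obtain ⟨x, y, hxy, hyb, hx, hy⟩ :=
    hbn (f Y) Y ((le_sup (mem_univ _)).trans hY) rfl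
  exact ⟨x, y, hxy, hyb.trans (le_sup (mem_univ _)), hx, hy⟩

/-- Powers of the two bases which are relatively close. -/
theorem exists_close_powers {k l : ℕ} (hk : 2 ≤ k) (hl : 2 ≤ l) (C : ℕ) :
    ∃ c d : ℕ, 0 < c ∧ C * ((k ^ c : ℕ) - (l ^ d : ℕ) : ℤ).natAbs ≤ l ^ d := by
  have hlk : 0 < Real.log k := Real.log_pos (by exact_mod_cast hk)
  have hll : 0 < Real.log l := Real.log_pos (by exact_mod_cast hl)
  set x := Real.log k / Real.log l with hx
  have hxpos : 0 < x := div_pos hlk hll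
  set η : ℝ := 1 / (2 * ((C : ℝ) + 1) * (Real.log l + 1)) with hη
  obtain ⟨n, hn⟩ := exists_nat_one_div_lt (lt_min hxpos (show 0 < η by positivity))
  obtain ⟨j, c, hc, -, hjc⟩ := Real.exists_int_int_abs_mul_sub_le x (Nat.succ_pos n)
  obtain ⟨c, rfl⟩ := Int.eq_ofNat_of_zero_le hc.le
  have hc1 : (1 : ℝ) ≤ c := by exact_mod_cast hc
  have hsmall : |(c : ℝ) * x - j| < min x η := by
    refine (hjc.trans ?_).trans_lt hn
    gcongr
    linarith
  have hj : 0 ≤ j := by
    by_contra hj
    push Not at hj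
    have hj' : (j : ℝ) ≤ 0 := by exact_mod_cast hj.le
    have := (abs_lt.1 (hsmall.trans_le (min_le_left _ _))).2
    nlinarith
  obtain ⟨d, rfl⟩ := Int.eq_ofNat_of_zero_le hj
  refine ⟨c, d, by exact_mod_cast hc, ?_⟩
  set t : ℝ := ((c : ℝ) * x - d) * Real.log l with ht
  have hk0 : (0 : ℝ) < k := by positivity
  have hl0 : (0 : ℝ) < l := by positivity
  have hpow : (k : ℝ) ^ c = (l : ℝ) ^ d * Real.exp t := by
    rw [ht, sub_mul, hx, mul_assoc, div_mul_cancel₀ _ hll.ne', Real.exp_sub, Real.exp_nat_mul,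
      Real.exp_log hk0, Real.exp_nat_mul, Real.exp_log hl0,
      mul_div_cancel₀ _ (pow_ne_zero _ hl0.ne')]
  have htle : |t| * (2 * ((C : ℝ) + 1)) ≤ 1 := by
    have h1 : |(c : ℝ) * x - d| * (2 * ((C : ℝ) + 1) * (Real.log l + 1)) ≤ 1 := by
      rw [← le_div_iff₀ (by positivity)]
      exact ((by simpa using hsmall) : |(c : ℝ) * x - d| < x ∧ |(c : ℝ) * x - d| < η).2.le
    rw [ht, abs_mul, abs_of_pos hll]
    refine le_trans ?_ h1
    have : 0 ≤ |(c : ℝ) * x - d| := abs_nonneg _
    nlinarith [mul_nonneg this (by positivity : (0 : ℝ) ≤ 2 * ((C : ℝ) + 1))]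
  have hexp : |Real.exp t - 1| * (C : ℝ) ≤ 1 := by
    have h1 : |t| ≤ 1 := by nlinarith [abs_nonneg t, (Nat.cast_nonneg C : (0 : ℝ) ≤ C)]
    nlinarith [Real.abs_exp_sub_one_le h1, abs_nonneg t, (Nat.cast_nonneg C : (0 : ℝ) ≤ C)]
  have hmain : ((C * ((k ^ c : ℕ) - (l ^ d : ℕ) : ℤ).natAbs : ℕ) : ℝ) ≤ ((l ^ d : ℕ) : ℝ) := by
    push_cast [Nat.cast_natAbs]
    rw [hpow, ← mul_sub_one, abs_mul, abs_of_pos (pow_pos hl0 d)]
    nlinarith [pow_pos hl0 d]
  exact_mod_cast hmain

/-- The theorem when the chosen powers satisfy `l ^ d < k ^ c`. -/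
theorem periodic_of_close {k l c d B N : ℕ}
    (hB : ∀ Y, N ≤ Y → ∃ x y, x < y ∧ y ≤ B ∧
      (∀ z ∈ [x, y], prefixClass k a z = prefixClass k a Y ∧
        prefixClass k a (z + 1) = prefixClass k a (Y + 1) ∧
        prefixClass l a z = prefixClass l a Y ∧ prefixClass l a (z + 1) = prefixClass l a (Y + 1)))
    (hlt : l ^ d < k ^ c) (hclose : 16 * (B + 1) * (k ^ c - l ^ d) ≤ l ^ d) :
    ∃ p M, 0 < p ∧ ∀ n, M ≤ n → a (n + p) = a n := by
  set K := k ^ c with hK
  set L := l ^ d with hL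
  set e := K - L with he
  have he0 : 0 < e := by omega
  have hKe : K = L + e := by omega
  set A := (B + 2) * e * 2 with hA
  -- each late block has a small period
  have hblock : ∀ Y, N ≤ Y → ∃ q, 0 < q ∧ q ≤ B * e ∧
      PeriodicOn a q (K * Y + A) (K * Y + (2 * K - A)) := by
    intro Y hY
    obtain ⟨x, y, hxy, hyB, hz⟩ := hB Y hY
    obtain ⟨hx0, hx1, hx2, hx3⟩ := hz x (by simp)
    obtain ⟨hy0, hy1, hy2, hy3⟩ := hz y (by simp)
    refine ⟨(y - x) * e, Nat.mul_pos (by omega) he0, Nat.mul_le_mul_right e (by omega), ?_⟩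
    intro w hw hwq
    obtain ⟨r, rfl⟩ : ∃ r, w = K * Y + r := ⟨w - K * Y, by omega⟩
    obtain ⟨g, rfl⟩ : ∃ g, y = x + g := ⟨y - x, by omega⟩
    rw [Nat.add_sub_cancel_left] at hwq ⊢
    have hxe : x * e + g * e ≤ B * e := by
      rw [← add_mul]; exact Nat.mul_le_mul_right e hyB
    have hA' : A = (B * e + 2 * e) * 2 := by rw [hA, add_mul]
    calc a (K * Y + r + g * e) = a (K * (x + g) + (r + g * e)) := by
          rw [add_assoc]
          exact (block_eq hy0 hy1 c (by omega)).symm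
      _ = a (K * x + (r + g * e)) :=
          block_eq (hy0.trans hx0.symm) (hy1.trans hx1.symm) c (by omega)
      _ = a (L * x + (r + g * e + x * e)) := by congr 1; rw [hKe]; ring
      _ = a (L * (x + g) + (r + g * e + x * e)) :=
          block_eq (hx2.trans hy2.symm) (hx3.trans hy3.symm) d (by omega)
      _ = a (K * (x + g) + r) := by congr 1; rw [hKe]; ring
      _ = a (K * Y + r) := block_eq hy0 hy1 c (by omega)
  obtain ⟨p, hp0, hpB, hp⟩ := hblock N le_rfl
  have hsize : 4 * A ≤ K := by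
    have h1 : 4 * A ≤ 16 * (B + 1) * e := by
      rw [hA, show 4 * ((B + 2) * e * 2) = (8 * (B + 2)) * e by ring]
      exact Nat.mul_le_mul_right e (by omega)
    omega
  have hBA : 2 * (B * e) ≤ A := by
    rw [hA, mul_comm 2 (B * e)]
    exact Nat.mul_le_mul_right 2 (Nat.mul_le_mul_right e (Nat.le_add_right B 2))
  have hall : ∀ i, PeriodicOn a p (K * N + A) (K * (N + i) + (2 * K - A)) := by
    intro i
    induction i with
    | zero => simpa using hp
    | succ i ih =>
      obtain ⟨q, hq0, hqB, hq⟩ := hblock (N + (i + 1)) (Nat.le_add_right _ _)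
      have h1 : K * (N + (i + 1)) = K * (N + i) + K := by ring
      have h2 : K * N ≤ K * (N + i) := Nat.mul_le_mul_left K (Nat.le_add_right _ _)
      exact periodicOn_glue hq0 ih hq (by omega) (by omega)
  refine ⟨p, K * N + A, hp0, fun n hn => hall (n + p + 1) n hn ?_⟩
  have : n + p + 1 ≤ K * (N + (n + p + 1)) :=
    (Nat.le_add_left _ N).trans (Nat.le_mul_of_pos_left _ (by omega))
  omega

/-- **Cobham's theorem.** -/
theorem cobham {k l : ℕ} (hk : 2 ≤ k) (hl : 2 ≤ l)
    (hind : ∀ m n : ℕ, 0 < m → k ^ m ≠ l ^ n)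
    (hka : (kern k a).Finite) (hla : (kern l a).Finite) :
    ∃ p M, 0 < p ∧ ∀ n, M ≤ n → a (n + p) = a n := by
  have := (finite_range_of_finite_kern hk hka).to_subtype
  have := hka.to_subtype
  have := hla.to_subtype
  obtain ⟨B, N, hBN⟩ := exists_two_early fun x =>
    ((prefixClass k a x, prefixClass k a (x + 1)), (prefixClass l a x, prefixClass l a (x + 1)))
  simp only [Prod.ext_iff] at hBN
  obtain ⟨c, d, hc, hcd⟩ := exists_close_powers hk hl (17 * (B + 1))
  rcases lt_trichotomy (l ^ d) (k ^ c) with h | h | h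
  · refine periodic_of_close (B := B) (N := N) (k := k) (l := l) (c := c) (d := d) ?_ h ?_
    · intro Y hY
      obtain ⟨x, y, hxy, hyB, ⟨⟨h1, h2⟩, h3, h4⟩, ⟨⟨g1, g2⟩, g3, g4⟩⟩ := hBN Y hY
      exact ⟨x, y, hxy, hyB, by simp [h1, h2, h3, h4, g1, g2, g3, g4]⟩
    · rw [show ((k ^ c : ℕ) - (l ^ d : ℕ) : ℤ).natAbs = k ^ c - l ^ d by omega] at hcd
      exact le_trans (Nat.mul_le_mul_right _ (by omega)) hcd
  · exact absurd h.symm (hind c d hc)
  · refine periodic_of_close (B := B) (N := N) (k := l) (l := k) (c := d) (d := c) ?_ h ?_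
    · intro Y hY
      obtain ⟨x, y, hxy, hyB, ⟨⟨h1, h2⟩, h3, h4⟩, ⟨⟨g1, g2⟩, g3, g4⟩⟩ := hBN Y hY
      exact ⟨x, y, hxy, hyB, by simp [h1, h2, h3, h4, g1, g2, g3, g4]⟩
    · rw [show ((k ^ c : ℕ) - (l ^ d : ℕ) : ℤ).natAbs = l ^ d - k ^ c by omega] at hcd
      have : 17 * (B + 1) * (l ^ d - k ^ c) = 16 * (B + 1) * (l ^ d - k ^ c) +
          (B + 1) * (l ^ d - k ^ c) := by ring
      have : l ^ d - k ^ c ≤ (B + 1) * (l ^ d - k ^ c) := Nat.le_mul_of_pos_left _ (by omega)
      omega

/-- An eventually periodic sequence is automatic in every base. -/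
theorem finite_kern_of_periodic {p M : ℕ} (hp : 0 < p) (h : ∀ n, M ≤ n → a (n + p) = a n)
    {k : ℕ} (hk : 2 ≤ k) : (kern k a).Finite := by
  classical
  have hrange : (Set.range a).Finite := by
    refine (Set.toFinite ((fun i : Fin (M + p) => a i) '' Set.univ)).subset ?_
    rintro _ ⟨n, rfl⟩
    induction n using Nat.strong_induction_on with
    | _ n ih =>
      rcases lt_or_ge n (M + p) with hn | hn
      · exact ⟨⟨n, hn⟩, trivial, rfl⟩
      · have := h (n - p) (by omega)
        rw [Nat.sub_add_cancel (by omega)] at this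
        rw [this]
        exact ih _ (by omega)
  have hmod : ∀ m n, M ≤ m → M ≤ n → m % p = n % p → a m = a n := by
    have hstep : ∀ t m, M ≤ m → a (m + p * t) = a m := fun t => by
      induction t with
      | zero => simp
      | succ t ih =>
        intro m hm
        rw [mul_add, mul_one, ← add_assoc, h _ (hm.trans (Nat.le_add_right _ _)), ih m hm]
    intro m n hm hn hmn
    have hm' := Nat.mod_add_div m p
    have hn' := Nat.mod_add_div n p
    rcases le_total (m / p) (n / p) with hle | hle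
    · obtain ⟨t, ht⟩ := Nat.exists_eq_add_of_le hle
      rw [← hstep t m hm]
      congr 1
      rw [ht, mul_add] at hn'
      omega
    · obtain ⟨t, ht⟩ := Nat.exists_eq_add_of_le hle
      rw [← hstep t n hn]
      congr 1
      rw [ht, mul_add] at hm'
      omega
  set hi : Set (ℕ → α) := (fun q : α × Fin p × Fin p => fun n =>
    if n = 0 then q.1 else a (q.2.1 * n + q.2.2 + M * p)) '' (Set.range a ×ˢ Set.univ) with hhi
  set lo : Set (ℕ → α) := ⋃ e ∈ Set.Iio M,
    (fun r => fun n => a (k ^ e * n + r)) '' Set.Iio (k ^ e) with hlo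
  have hfin : (lo ∪ hi).Finite :=
    ((Set.finite_Iio M).biUnion fun e _ => (Set.finite_Iio _).image _).union
      ((hrange.prod Set.finite_univ).image _)
  refine hfin.subset ?_
  rintro _ ⟨e, r, hr, rfl⟩
  rcases lt_or_ge e M with he | he
  · exact Or.inl (Set.mem_biUnion he ⟨r, hr, rfl⟩)
  · refine Or.inr ⟨(a r, ⟨k ^ e % p, Nat.mod_lt _ hp⟩, ⟨r % p, Nat.mod_lt _ hp⟩),
      ⟨⟨r, rfl⟩, trivial⟩, funext fun n => ?_⟩
    rcases Nat.eq_zero_or_pos n with rfl | hn
    · simp
    · simp only [hn.ne', if_false]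
      refine hmod _ _ (le_add_left (Nat.le_mul_of_pos_right M hp)) ?_ ?_
      · have h1 : M ≤ k ^ e := he.trans (Nat.lt_pow_self hk).le
        exact le_add_right (h1.trans (Nat.le_mul_of_pos_right _ hn))
      · simp [Nat.add_mod, Nat.mul_mod]

/-- **Cobham's theorem**, as an equivalence. -/
theorem cobham_iff {k l : ℕ} (hk : 2 ≤ k) (hl : 2 ≤ l)
    (hind : ∀ m n : ℕ, 0 < m → k ^ m ≠ l ^ n) :
    ((kern k a).Finite ∧ (kern l a).Finite) ↔ ∃ p M, 0 < p ∧ ∀ n, M ≤ n → a (n + p) = a n :=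
  ⟨fun h => cobham hk hl hind h.1 h.2,
    fun ⟨_, _, hp, h⟩ => ⟨finite_kern_of_periodic hp h hk, finite_kern_of_periodic hp h hl⟩⟩

end FA.Cobham

end
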